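import Fermat.Agent.AVn.Stmts

/-!
# Transcendence degrees of base changes (S26, block D6)
-/

set_option autoImplicit false
set_option linter.unusedSectionVars false

universe u v w

noncomputable section

open IntermediateField

namespace Fermat.Agent.AVD6

open Fermat.Agent.BaseChangeFF

/-- algebraicity can be transported along inclusions of rings of scalars -/
theorem isAlgebraic_transfer {R S A B : Type*} [CommRing R] [CommRing S] [CommRing A] [Ring B]
    [Algebra R A] [Algebra S B] (g : A →+* B)
    (hg : Function.Injective (fun r : R => g (algebraMap R A r)))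
    (hS : Function.Injective (algebraMap S B))
    (h : ∀ r : R, ∃ s : S, algebraMap S B s = g (algebraMap R A r)) {a : A}
    (ha : IsAlgebraic R a) : IsAlgebraic S (g a) := by
  choose f hf using h
  let φ : R →+* S :=
    { toFun := f
      map_one' := hS (by rw [hf]; simp)
      map_mul' := fun x y => hS (by rw [hf, map_mul, map_mul, map_mul, hf, hf])
      map_zero' := hS (by rw [hf]; simp)
      map_add' := fun x y => hS (by rw [hf, map_add, map_add, map_add, hf, hf]) }
  refine ha.ringHom_of_comp_eq φ g (fun x y hxy => hg ?_) ?_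
  · show g (algebraMap R A x) = g (algebraMap R A y)
    rw [← hf, ← hf]
    exact congrArg _ hxy
  · ext r
    exact hf r

theorem isAlgebraic_of_range_le {R S B : Type*} [CommRing R] [CommRing S] [CommRing B]
    [Algebra R B] [Algebra S B] (hR : Function.Injective (algebraMap R B))
    (hS : Function.Injective (algebraMap S B))
    (h : ∀ r : R, ∃ s : S, algebraMap S B s = algebraMap R B r) {a : B}
    (ha : IsAlgebraic R a) : IsAlgebraic S a :=
  isAlgebraic_transfer (RingHom.id B) hR hS h ha

section bc

variable {K : Type u} {M : Type u} {F : Type u} {Ma : Type u} [Field K] [Field M] [Field F]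
  [Field Ma] [Algebra K M] [Algebra K F] [Algebra M Ma] [Algebra F Ma] [Algebra K Ma]
  [IsScalarTower K M Ma] [IsScalarTower K F Ma]

/-- elements of `E·L` are algebraic over `E(t)` if `L` is algebraic over `K(t)` -/
theorem isAlgebraic_adjoin_of_mem {ι : Type*} {t : ι → F}
    (ht : Algebra.IsAlgebraic (Algebra.adjoin K (Set.range t)) F) {x : Ma}
    (hx : x ∈ IntermediateField.adjoin M (Set.range (algebraMap F Ma))) :
    IsAlgebraic (Algebra.adjoin M (Set.range fun i => algebraMap F Ma (t i))) x := by
  set R' := Algebra.adjoin M (Set.range fun i => algebraMap F Ma (t i)) with hR'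
  induction hx using IntermediateField.adjoin_induction with
  | mem x hx =>
    obtain ⟨y, rfl⟩ := hx
    refine isAlgebraic_transfer (R := Algebra.adjoin K (Set.range t)) (S := R') (algebraMap F Ma)
      ?_ ?_ ?_ (ht.isAlgebraic y)
    · intro a b hab
      exact Subtype.ext ((algebraMap F Ma).injective hab)
    · exact Subtype.val_injective
    · intro r
      have hle : Algebra.adjoin K (Set.range t) ≤
          (R'.restrictScalars K).comap (IsScalarTower.toAlgHom K F Ma) := by
        refine Algebra.adjoin_le ?_
        rintro _ ⟨i, rfl⟩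
        exact Algebra.subset_adjoin ⟨i, rfl⟩
      exact ⟨⟨_, hle r.2⟩, rfl⟩
  | algebraMap x =>
    exact isAlgebraic_algebraMap (⟨algebraMap M Ma x, R'.algebraMap_mem x⟩ : R')
  | add x y _ _ h1 h2 => exact h1.add h2
  | inv x _ h1 => exact h1.inv
  | mul x y _ _ h1 h2 => exact h1.mul h2

theorem bc_adjoin_eq_top [h : BC K M F Ma] :
    IntermediateField.adjoin M (Set.range (algebraMap F Ma)) = ⊤ := by
  have hspan : ∀ a ∈ Submodule.span M (Set.range (algebraMap F Ma)),
      a ∈ IntermediateField.adjoin M (Set.range (algebraMap F Ma)) := by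
    intro a ha
    induction ha using Submodule.span_induction with
    | mem a ha => exact IntermediateField.subset_adjoin _ _ ha
    | zero => exact zero_mem _
    | add a b _ _ ha hb => exact add_mem ha hb
    | smul c a _ ha => exact IntermediateField.smul_mem _ ha
  rw [eq_top_iff]
  intro z _
  obtain ⟨a, b, ha, hb, hb0, hab⟩ := h.gen z
  have : z = a / b := by rw [← hab, mul_div_cancel_right₀ _ hb0]
  rw [this]
  exact div_mem (hspan a ha) (hspan b hb)

theorem bc_isAlgebraic [BC K M F Ma] {ι : Type*} {t : ι → F}
    (ht : Algebra.IsAlgebraic (Algebra.adjoin K (Set.range t)) F) :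
    Algebra.IsAlgebraic (Algebra.adjoin M (Set.range fun i => algebraMap F Ma (t i))) Ma :=
  ⟨fun x => isAlgebraic_adjoin_of_mem ht (by
    rw [bc_adjoin_eq_top (K := K) (M := M) (F := F) (Ma := Ma)]; exact mem_top)⟩

theorem bc_algebraicIndependent [h : BC K M F Ma] {ι : Type*} {t : ι → F}
    (ht : AlgebraicIndependent K t) :
    AlgebraicIndependent M (fun i => algebraMap F Ma (t i)) := by
  have h1 : LinearIndependent K (fun m : ι →₀ ℕ => (MvPolynomial.aeval t
      (MvPolynomial.monomial m (1 : K)) : F)) := by
    have h0 := (MvPolynomial.basisMonomials ι K).linearIndependent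
    have := h0.map' (MvPolynomial.aeval t : MvPolynomial ι K →ₐ[K] F).toLinearMap
      (LinearMap.ker_eq_bot.mpr ht)
    simpa [Function.comp_def] using this
  have h2 := h.linearIndependent h1
  let b := MvPolynomial.basisMonomials ι M
  let f : MvPolynomial ι M →ₗ[M] Ma :=
    (MvPolynomial.aeval (R := M) (fun i => algebraMap F Ma (t i))).toLinearMap
  have hfb : ∀ m, f (b m) = algebraMap F Ma (MvPolynomial.aeval t
      (MvPolynomial.monomial m (1 : K)) : F) := by
    intro m
    simp only [f, b, MvPolynomial.coe_basisMonomials, AlgHom.toLinearMap_apply]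
    rw [MvPolynomial.aeval_monomial, MvPolynomial.aeval_monomial, map_one, map_one, one_mul,
      one_mul]
    simp [Finsupp.prod]
  have h3 : LinearIndependent M (f ∘ b) := by
    convert h2 using 1
    funext m
    exact hfb m
  have h4 : Function.Injective f := by
    rw [← LinearMap.ker_eq_bot, LinearMap.ker_eq_bot']
    intro p hp
    have h5 : Finsupp.linearCombination M (f ∘ b) (b.repr p) = 0 := by
      rw [← LinearMap.map_finsupp_linearCombination, b.linearCombination_repr, hp]
    have h6 : b.repr p = 0 := h3 (by rw [h5, map_zero])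
    simpa using h6
  exact h4

theorem bc_isTranscendenceBasis [BC K M F Ma] {ι : Type*} {t : ι → F}
    (ht : IsTranscendenceBasis K t) :
    IsTranscendenceBasis M (fun i => algebraMap F Ma (t i)) := by
  have := bc_isAlgebraic (M := M) (Ma := Ma) ht.isAlgebraic
  exact (bc_algebraicIndependent ht.1).isTranscendenceBasis_iff_isAlgebraic.mpr this

/-- transcendence degree of a base change -/
theorem trdeg_bc [BC K M F Ma] : Algebra.trdeg M Ma = Algebra.trdeg K F := by
  obtain ⟨s, hs⟩ := exists_isTranscendenceBasis K F
  rw [← hs.cardinalMk_eq_trdeg,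
    ← (bc_isTranscendenceBasis (M := M) (Ma := Ma) hs).cardinalMk_eq_trdeg]

/-- base changes of finitely generated fields -/
theorem essFinite_bc [h : BC K M F Ma] [Algebra.EssFiniteType K F] :
    Algebra.EssFiniteType M Ma := by
  obtain ⟨s, hs⟩ := IntermediateField.fg_top K F
  classical
  rw [← IntermediateField.fg_top_iff]
  refine ⟨s.image (algebraMap F Ma), ?_⟩
  rw [← bc_adjoin_eq_top (K := K) (M := M) (F := F) (Ma := Ma)]
  apply le_antisymm
  · apply IntermediateField.adjoin.mono
    rw [Finset.coe_image]
    exact Set.image_subset_range _ _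
  · rw [IntermediateField.adjoin_le_iff]
    have h1 : IntermediateField.adjoin K (s : Set F) ≤
        ((IntermediateField.adjoin M ((s.image (algebraMap F Ma) : Finset Ma) :
          Set Ma)).restrictScalars K).comap (IsScalarTower.toAlgHom K F Ma) := by
      rw [IntermediateField.adjoin_le_iff]
      intro x hx
      exact IntermediateField.subset_adjoin _ _ (by
        rw [Finset.coe_image]
        exact ⟨x, hx, rfl⟩)
    rw [hs] at h1
    rintro _ ⟨y, rfl⟩
    exact h1 (mem_top : y ∈ ⊤)

end bc

/-- a field which is finite over `k(u)`, `u` transcendental, has transcendence degree one -/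
theorem trdeg_eq_one {k E : Type u} [Field k] [Field E] [Algebra k E] {u : E}
    (hu : Transcendental k u) [FiniteDimensional k⟮u⟯ E] : Algebra.trdeg k E = 1 := by
  have h1 : AlgebraicIndependent k (fun _ : PUnit.{u + 1} => u) :=
    algebraicIndependent_unique_type_iff.mpr hu
  have h2 : Algebra.IsAlgebraic (Algebra.adjoin k (Set.range (fun _ : PUnit.{u + 1} => u))) E := by
    rw [Set.range_const, ← isAlgebraic_adjoin_iff_top]
    exact Algebra.IsAlgebraic.of_finite _ _
  have h3 := (h1.isTranscendenceBasis_iff_isAlgebraic.mpr h2).cardinalMk_eq_trdeg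
  rw [← h3]
  simp

theorem essFinite_of_finite {k E : Type*} [Field k] [Field E] [Algebra k E] (u : E)
    [FiniteDimensional k⟮u⟯ E] : Algebra.EssFiniteType k E := by
  have h1 : Algebra.EssFiniteType k k⟮u⟯ :=
    IntermediateField.essFiniteType_iff.mpr ⟨{u}, by simp⟩
  exact Algebra.EssFiniteType.comp k k⟮u⟯ E

end Fermat.Agent.AVD6

end
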