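import Fermat.Agent.AVD6.Alg
import Fermat.Agent.AVb.Fd

/-!
# Finiteness of `E(a)` over `k(a)(f(P - a))` (S26, block D6)
-/

set_option autoImplicit false
set_option linter.unusedSectionVars false

universe u

noncomputable section

open IntermediateField

namespace Fermat.Agent.AVD6

open Fermat.Agent.BaseChangeFF Fermat.Agent.AVn

/-! ### fields -/

section fields

variable {K k M F Ma : Type u} [Field K] [Field k] [Field M] [Field F]
  [Field Ma] [Algebra K k] [Algebra k M] [Algebra K M] [IsScalarTower K k M] [Algebra K F]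
  [Algebra M Ma] [Algebra F Ma] [Algebra K Ma] [Algebra k Ma]
  [IsScalarTower K M Ma] [IsScalarTower K F Ma] [IsScalarTower k M Ma] [IsScalarTower K k Ma]

/-- the transcendence degree of `k(a)` over `k` is at least that of `F` over `K`. -/
theorem le_trdeg_adjoin [BC K M F Ma] : Algebra.trdeg K F ≤
    Algebra.trdeg k (IntermediateField.adjoin k (Set.range (algebraMap F Ma))) := by
  obtain ⟨s, hs⟩ := exists_isTranscendenceBasis K F
  have h1 : AlgebraicIndependent k (fun i : s => algebraMap F Ma (i : F)) :=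
    (bc_algebraicIndependent (M := M) hs.1).restrictScalars (algebraMap k M).injective
  rw [← hs.cardinalMk_eq_trdeg]
  let T : s → IntermediateField.adjoin k (Set.range (algebraMap F Ma)) := fun i =>
    ⟨algebraMap F Ma (i : F), IntermediateField.subset_adjoin _ _ ⟨_, rfl⟩⟩
  have h2 : AlgebraicIndependent k T :=
    AlgebraicIndependent.of_comp
      (IntermediateField.adjoin k (Set.range (algebraMap F Ma))).val h1
  exact h2.cardinalMk_le_trdeg

theorem trdeg_adjoin_le : Algebra.trdeg k (IntermediateField.adjoin k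
    (Set.range (algebraMap F Ma))) ≤ Algebra.trdeg K F := by
  obtain ⟨s, hs⟩ := exists_isTranscendenceBasis K F
  rw [← hs.cardinalMk_eq_trdeg]
  set L := IntermediateField.adjoin k (Set.range (algebraMap F Ma)) with hL
  let T : s → L := fun i =>
    ⟨algebraMap F Ma (i : F), IntermediateField.subset_adjoin _ _ ⟨_, rfl⟩⟩
  have h1 : Algebra.IsAlgebraic (Algebra.adjoin k (Set.range T)) L := by
    refine ⟨fun x => ?_⟩
    have h2 := isAlgebraic_adjoin_of_mem (K := K) (M := k) (F := F) (Ma := Ma)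
      (t := fun i : s => (i : F)) hs.isAlgebraic x.2
    -- transport
    have h3 : IsAlgebraic (Algebra.adjoin k (Set.range T)) ((x : Ma)) := by
      refine isAlgebraic_of_range_le Subtype.val_injective ?_ ?_ h2
      · intro a b hab
        exact Subtype.ext (Subtype.ext hab)
      · rintro ⟨r, hr⟩
        have hle : Algebra.adjoin k (Set.range fun i : s => algebraMap F Ma (i : F)) ≤
            (Algebra.adjoin k (Set.range T)).map L.val := by
          rw [Algebra.adjoin_le_iff]
          rintro _ ⟨i, rfl⟩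
          exact ⟨T i, Algebra.subset_adjoin ⟨i, rfl⟩, rfl⟩
        obtain ⟨y, hy, hyr⟩ := hle hr
        exact ⟨⟨y, hy⟩, hyr⟩
    exact (isAlgebraic_algebraMap_iff (algebraMap L Ma).injective).mp h3
  refine (Algebra.IsAlgebraic.trdeg_le_cardinalMk k (Set.range T)).trans ?_
  exact Cardinal.mk_range_le

theorem trdeg_adjoin_range [BC K M F Ma] : Algebra.trdeg k (IntermediateField.adjoin k
    (Set.range (algebraMap F Ma))) = Algebra.trdeg K F :=
  le_antisymm (trdeg_adjoin_le (K := K)) (le_trdeg_adjoin (K := K) (M := M))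

theorem trdeg_total [BC K M F Ma] :
    Algebra.trdeg k Ma = Algebra.trdeg k M + Algebra.trdeg K F := by
  rw [← _root_.trdeg_add_eq k M (A := Ma), trdeg_bc (K := K) (M := M) (F := F) (Ma := Ma)]

theorem trdeg_over_ka [BC K M F Ma] {n : ℕ} (hn : Algebra.trdeg K F = n) :
    Algebra.trdeg (IntermediateField.adjoin k (Set.range (algebraMap F Ma))) Ma =
      Algebra.trdeg k M := by
  have h1 := _root_.trdeg_add_eq k (IntermediateField.adjoin k (Set.range (algebraMap F Ma)))
    (A := Ma)
  rw [trdeg_adjoin_range (K := K) (M := M) (F := F) (Ma := Ma),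
    trdeg_total (K := K) (k := k) (M := M) (F := F) (Ma := Ma), hn, add_comm] at h1
  exact Cardinal.eq_of_add_eq_add_right h1 (Cardinal.natCast_lt_aleph0)

theorem mem_adjoin_iff_of_range_eq {R S B : Type*} [Field R] [Field S] [Field B] [Algebra R B]
    [Algebra S B] (h : Set.range (algebraMap R B) = Set.range (algebraMap S B)) (T : Set B)
    (x : B) : x ∈ IntermediateField.adjoin R T ↔ x ∈ IntermediateField.adjoin S T := by
  have h1 : (IntermediateField.adjoin R T).toSubfield =
      (IntermediateField.adjoin S T).toSubfield := by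
    rw [IntermediateField.adjoin_toSubfield, IntermediateField.adjoin_toSubfield, h]
  rw [← IntermediateField.mem_toSubfield, h1, IntermediateField.mem_toSubfield]

theorem mem_adjoin_insert_iff {k Ω : Type*} [Field k] [Field Ω] [Algebra k Ω] (S : Set Ω)
    (Φ x : Ω) : x ∈ IntermediateField.adjoin k (insert Φ S) ↔
      x ∈ IntermediateField.adjoin (IntermediateField.adjoin k S) {Φ} := by
  have h := IntermediateField.adjoin_adjoin_left k S {Φ}
  rw [Set.union_comm, ← Set.insert_eq] at h
  rw [← h, IntermediateField.mem_restrictScalars]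

/-- one variable over `k(a)` -/
theorem isAlgebraic_of_transcendental {ka Ω : Type u} [Field ka] [Field Ω] [Algebra ka Ω]
    (h1 : Algebra.trdeg ka Ω ≤ 1) {Φ : Ω} (hΦ : Transcendental ka Φ) :
    Algebra.IsAlgebraic ka⟮Φ⟯ Ω := by
  have h2 : AlgebraicIndependent ka (fun _ : PUnit.{u + 1} => Φ) :=
    algebraicIndependent_unique_type_iff.mpr hΦ
  have h3 := (h2.isTranscendenceBasis_of_trdeg_le_of_finite (by simpa using h1)).isAlgebraic
  rw [Set.range_const, ← isAlgebraic_adjoin_iff_top] at h3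
  exact h3

theorem trdeg_simple {ka Ω : Type u} [Field ka] [Field Ω] [Algebra ka Ω] {Φ : Ω}
    (hΦ : Transcendental ka Φ) : 1 ≤ Algebra.trdeg ka ka⟮Φ⟯ := by
  have h2 : AlgebraicIndependent ka (fun _ : PUnit.{u + 1} => AdjoinSimple.gen ka Φ) := by
    rw [algebraicIndependent_unique_type_iff]
    intro h
    exact hΦ (h.algHom ka⟮Φ⟯.val)
  simpa using h2.cardinalMk_le_trdeg

theorem trdeg_simple_le {ka Ω : Type u} [Field ka] [Field Ω] [Algebra ka Ω] {Φ : Ω}
    (hΦ : Transcendental ka Φ) (h2 : Algebra.trdeg ka Ω = 2) : Algebra.trdeg ka⟮Φ⟯ Ω ≤ 1 := by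
  have h4 := _root_.trdeg_add_eq ka ka⟮Φ⟯ (A := Ω)
  have h5 := trdeg_simple hΦ
  rw [h2] at h4
  have h6 : 1 + Algebra.trdeg ka⟮Φ⟯ Ω ≤ 1 + 1 := by
    calc 1 + Algebra.trdeg ka⟮Φ⟯ Ω ≤ Algebra.trdeg ka ka⟮Φ⟯ + Algebra.trdeg ka⟮Φ⟯ Ω := by gcongr
      _ = 2 := h4
      _ = 1 + 1 := one_add_one_eq_two.symm
  rw [add_comm 1 (Algebra.trdeg ka⟮Φ⟯ Ω)] at h6
  exact (Cardinal.add_le_add_iff_of_lt_aleph0 Cardinal.one_lt_aleph0).mp h6

theorem finiteDimensional_of_trdeg_one [BC K M F Ma] [Algebra.EssFiniteType K F]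
    [Algebra.EssFiniteType k M] {n : ℕ} (hn : Algebra.trdeg K F = n)
    (h1 : Algebra.trdeg k M = 1) {Φ : Ma}
    (hΦ : Transcendental (IntermediateField.adjoin k (Set.range (algebraMap F Ma))) Φ) :
    FiniteDimensional (IntermediateField.adjoin k (insert Φ (Set.range (algebraMap F Ma)))) Ma := by
  set κ := IntermediateField.adjoin k (insert Φ (Set.range (algebraMap F Ma))) with hκ
  have h2 : Algebra.trdeg (IntermediateField.adjoin k (Set.range (algebraMap F Ma))) Ma ≤ 1 := by
    rw [trdeg_over_ka (K := K) (M := M) hn, h1]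
  have h3 := isAlgebraic_of_transcendental h2 hΦ
  have h4 : Algebra.IsAlgebraic κ Ma := by
    refine ⟨fun x => isAlgebraic_of_range_le Subtype.val_injective Subtype.val_injective ?_
      (h3.isAlgebraic x)⟩
    rintro ⟨r, hr⟩
    exact ⟨⟨r, (mem_adjoin_insert_iff _ _ _).mpr hr⟩, rfl⟩
  have h5 : Algebra.EssFiniteType M Ma := essFinite_bc (K := K) (F := F)
  have h6 : Algebra.EssFiniteType k Ma := Algebra.EssFiniteType.comp k M Ma
  have h7 : Algebra.EssFiniteType κ Ma := Algebra.EssFiniteType.of_comp k κ Ma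
  exact Algebra.finite_of_essFiniteType_of_isAlgebraic

theorem finiteDimensional_of_trdeg_two [BC K M F Ma] [Algebra.EssFiniteType K F]
    [Algebra.EssFiniteType k M] {n : ℕ} (hn : Algebra.trdeg K F = n)
    (h1 : Algebra.trdeg k M = 2) {Φ : Ma}
    (hΦ : Transcendental (IntermediateField.adjoin k (Set.range (algebraMap F Ma))) Φ) {x : Ma}
    (hx : Transcendental
      (IntermediateField.adjoin k (insert Φ (Set.range (algebraMap F Ma)))) x) :
    FiniteDimensional (IntermediateField.adjoin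
      (IntermediateField.adjoin k (insert Φ (Set.range (algebraMap F Ma)))) {x}) Ma := by
  set ka := IntermediateField.adjoin k (Set.range (algebraMap F Ma)) with hka
  set κ := IntermediateField.adjoin k (insert Φ (Set.range (algebraMap F Ma))) with hκ
  have h2 : Algebra.trdeg ka Ma = 2 := by
    rw [trdeg_over_ka (K := K) (M := M) hn, h1]
  have hr : Set.range (algebraMap ka⟮Φ⟯ Ma) = Set.range (algebraMap κ Ma) := by
    ext z
    constructor
    · rintro ⟨⟨y, hy⟩, rfl⟩
      exact ⟨⟨y, (mem_adjoin_insert_iff _ _ _).mpr hy⟩, rfl⟩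
    · rintro ⟨⟨y, hy⟩, rfl⟩
      exact ⟨⟨y, (mem_adjoin_insert_iff _ _ _).mp hy⟩, rfl⟩
  have hx' : Transcendental ka⟮Φ⟯ x := by
    intro h
    refine hx (isAlgebraic_of_range_le Subtype.val_injective Subtype.val_injective ?_ h)
    intro r
    have : algebraMap ka⟮Φ⟯ Ma r ∈ Set.range (algebraMap κ Ma) := by
      rw [← hr]; exact ⟨r, rfl⟩
    exact this
  have h3 : Algebra.trdeg ka⟮Φ⟯ Ma ≤ 1 := trdeg_simple_le hΦ h2
  have h4 := isAlgebraic_of_transcendental h3 hx'
  have h5 : Algebra.IsAlgebraic κ⟮x⟯ Ma := by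
    refine ⟨fun y => isAlgebraic_of_range_le Subtype.val_injective Subtype.val_injective ?_
      (h4.isAlgebraic y)⟩
    rintro ⟨r, hr'⟩
    exact ⟨⟨r, (mem_adjoin_iff_of_range_eq hr _ _).mp hr'⟩, rfl⟩
  have h5 : Algebra.EssFiniteType M Ma := essFinite_bc (K := K) (F := F)
  have h6 : Algebra.EssFiniteType k Ma := Algebra.EssFiniteType.comp k M Ma
  have h7 : Algebra.EssFiniteType κ Ma := Algebra.EssFiniteType.of_comp k κ Ma
  have h8 : Algebra.EssFiniteType κ⟮x⟯ Ma := Algebra.EssFiniteType.of_comp κ κ⟮x⟯ Ma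
  exact Algebra.finite_of_essFiniteType_of_isAlgebraic

theorem not_finiteDimensional_of_isAlgebraic [BC K M F Ma] {n : ℕ}
    (hn : Algebra.trdeg K F = n) (h1 : Algebra.trdeg k M ≠ 0) {Φ : Ma}
    (hΦ : IsAlgebraic (IntermediateField.adjoin k (Set.range (algebraMap F Ma))) Φ) :
    ¬ FiniteDimensional
      (IntermediateField.adjoin k (insert Φ (Set.range (algebraMap F Ma)))) Ma := by
  intro hfin
  set ka := IntermediateField.adjoin k (Set.range (algebraMap F Ma)) with hka
  set κ := IntermediateField.adjoin k (insert Φ (Set.range (algebraMap F Ma))) with hκ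
  have h2 : Algebra.trdeg ka Ma ≠ 0 := by
    rw [trdeg_over_ka (K := K) (M := M) hn]
    exact h1
  apply h2
  have h3 : Algebra.IsAlgebraic κ Ma := Algebra.IsAlgebraic.of_finite _ _
  have h4 : Algebra.IsAlgebraic ka⟮Φ⟯ Ma := by
    refine ⟨fun y => isAlgebraic_of_range_le Subtype.val_injective Subtype.val_injective ?_
      (h3.isAlgebraic y)⟩
    rintro ⟨r, hr⟩
    exact ⟨⟨r, (mem_adjoin_insert_iff _ _ _).mp hr⟩, rfl⟩
  have h5 : Algebra.IsAlgebraic ka ka⟮Φ⟯ :=
    isAlgebraic_adjoin_simple hΦ.isIntegral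
  have h6 : Algebra.IsAlgebraic ka Ma := Algebra.IsAlgebraic.trans ka ka⟮Φ⟯ Ma
  exact _root_.trdeg_eq_zero

end fields

/-! ### points -/

section points

variable {K : Type u} [Field K] {g : ℕ} (A : AVar K g)

instance essFiniteType_F : Algebra.EssFiniteType K A.F := by
  rw [← IntermediateField.fg_top_iff, ← A.fd_gen]
  exact A.fd_fg A.gen

/-- `trdeg_k k(a) = g` -/
theorem trdeg_ka {k M Ma : Type u} [Field k] [Field M] [Field Ma] [Algebra K k] [Algebra k M]
    [Algebra K M] [IsScalarTower K k M] [Algebra M Ma] [Algebra A.F Ma] [Algebra K Ma]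
    [Algebra k Ma] [IsScalarTower K M Ma] [IsScalarTower K A.F Ma] [IsScalarTower k M Ma]
    [IsScalarTower K k Ma] [BC K M A.F Ma] :
    Algebra.trdeg k (IntermediateField.adjoin k (Set.range (algebraMap A.F Ma))) = g := by
  rw [trdeg_adjoin_range (K := K) (M := M), A.trdeg_F]

/-- `E` is a subfield -/
def toRestrict {E Ea : Type u} [Field E] [Field Ea] [Algebra K E] [Algebra E Ea]
    [Algebra K Ea] [IsScalarTower K E Ea] (X : IntermediateField E Ea) :
    E →ₐ[K] X.restrictScalars K :=
  { toFun := fun x => ⟨algebraMap E Ea x, X.algebraMap_mem x⟩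
    map_one' := Subtype.ext (map_one _)
    map_mul' := fun a b => Subtype.ext (map_mul _ a b)
    map_zero' := Subtype.ext (map_zero _)
    map_add' := fun a b => Subtype.ext (map_add _ a b)
    commutes' := fun c => Subtype.ext (by
      show algebraMap E Ea (algebraMap K E c) = algebraMap K Ea c
      rw [← IsScalarTower.algebraMap_apply]) }

theorem fd_map_le_restrict {E Ea : Type u} [Field E] [Field Ea] [Algebra K E] [Algebra E Ea]
    [Algebra K Ea] [IsScalarTower K E Ea] (X : IntermediateField E Ea) (P : A.Pt E) :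
    A.fd (A.map (IsScalarTower.toAlgHom K E Ea) P) ≤ X.restrictScalars K := by
  refine A.fd_le (A.map (toRestrict X) P) ?_
  rw [← A.map_comp]
  congr 1

theorem range_subset_of_fd_sub_gpt {E Ea : Type u} [Field E] [Field Ea] [Algebra K E]
    [Algebra E Ea] [Algebra K Ea] [IsScalarTower K E Ea] [Algebra A.F Ea] [IsScalarTower K A.F Ea]
    (X : IntermediateField E Ea) (P : A.Pt E)
    (hX : A.fd (A.map (IsScalarTower.toAlgHom K E Ea) P - A.gpt Ea) ≤ X.restrictScalars K)
    (y : A.F) : algebraMap A.F Ea y ∈ X := by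
  have h2 : A.fd (A.gpt Ea) ≤ X.restrictScalars K := by
    have h3 : A.gpt Ea = A.map (IsScalarTower.toAlgHom K E Ea) P -
        (A.map (IsScalarTower.toAlgHom K E Ea) P - A.gpt Ea) := by abel
    rw [h3]
    exact A.fd_sub_le' (fd_map_le_restrict A X P) hX
  rw [AVar.gpt, A.fd_map_gen] at h2
  exact h2 ⟨y, rfl⟩

theorem adjoin_eq_top_of_fd_le {E Ea : Type u} [Field E] [Field Ea] [Algebra K E]
    [Algebra E Ea] [Algebra K Ea] [IsScalarTower K E Ea] [Algebra A.F Ea] [IsScalarTower K A.F Ea]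
    [BC K E A.F Ea] (L : IntermediateField K Ea) (P : A.Pt E)
    (hL : A.fd (A.map (IsScalarTower.toAlgHom K E Ea) P - A.gpt Ea) ≤ L) :
    IntermediateField.adjoin E (Set.range (algebraMap L Ea)) = ⊤ := by
  have h1 : ∀ X : IntermediateField E Ea, (∀ x ∈ L, x ∈ X) → X = ⊤ := by
    intro X hX
    rw [eq_top_iff, ← bc_adjoin_eq_top (K := K) (M := E) (F := A.F) (Ma := Ea),
      IntermediateField.adjoin_le_iff]
    rintro _ ⟨y, rfl⟩
    exact range_subset_of_fd_sub_gpt A X P (fun x hx => hX x (hL hx)) y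
  exact h1 _ fun x hx => IntermediateField.subset_adjoin _ _ ⟨⟨x, hx⟩, rfl⟩

theorem le_trdeg_of_fd_le {E Ea : Type u} [Field E] [Field Ea] [Algebra K E]
    [Algebra E Ea] [Algebra K Ea] [IsScalarTower K E Ea] [Algebra A.F Ea] [IsScalarTower K A.F Ea]
    [BC K E A.F Ea] (L : IntermediateField K Ea) (P : A.Pt E)
    (hL : A.fd (A.map (IsScalarTower.toAlgHom K E Ea) P - A.gpt Ea) ≤ L) :
    (g : Cardinal) ≤ Algebra.trdeg K L := by
  obtain ⟨s, hs⟩ := exists_isTranscendenceBasis K L
  rw [← hs.cardinalMk_eq_trdeg]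
  have h1 := adjoin_eq_top_of_fd_le A L P hL
  have h2 : Algebra.IsAlgebraic (Algebra.adjoin E (Set.range fun i : s =>
      algebraMap L Ea (i : L))) Ea :=
    ⟨fun x => isAlgebraic_adjoin_of_mem (K := K) (M := E) (F := L) (Ma := Ea)
      (t := fun i : s => (i : L)) hs.isAlgebraic (by rw [h1]; exact mem_top)⟩
  have h3 := Algebra.IsAlgebraic.trdeg_le_cardinalMk E (Set.range fun i : s =>
      algebraMap L Ea (i : L))
  rw [trdeg_bc (K := K) (M := E) (F := A.F) (Ma := Ea), A.trdeg_F] at h3
  exact h3.trans Cardinal.mk_range_le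

/-- `P - a` is generic for `P` with values in `E` and `a` generic over `E`. -/
theorem trdeg_fd_sub_gpt {E Ea : Type u} [Field E] [Field Ea] [Algebra K E] [Algebra E Ea]
    [Algebra K Ea] [IsScalarTower K E Ea] [Algebra A.F Ea] [IsScalarTower K A.F Ea]
    [BC K E A.F Ea] (P : A.Pt E) :
    Algebra.trdeg K (A.fd (A.map (IsScalarTower.toAlgHom K E Ea) P - A.gpt Ea)) = g :=
  le_antisymm (A.trdeg_fd_le _) (le_trdeg_of_fd_le A _ P le_rfl)

end points

end Fermat.Agent.AVD6

end
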