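import Fermat.Agent.AVD6.Fin

/-!
# S26, block D6: statements in terms of heights
-/

set_option autoImplicit false
set_option linter.unusedSectionVars false

universe u

noncomputable section

open IntermediateField

namespace Fermat.Agent.AVD6

open Fermat.Agent.BaseChangeFF Fermat.Agent.AVn

variable {K : Type u} [Field K] {g : ℕ} (A : AVar K g)

section one

variable {k E Ea : Type u} [Field k] [Field E] [Field Ea] [Algebra K k] [Algebra k E]
  [Algebra K E] [IsScalarTower K k E] [Algebra E Ea] [Algebra A.F Ea] [Algebra K Ea]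
  [Algebra k Ea] [IsScalarTower K E Ea] [IsScalarTower K A.F Ea] [IsScalarTower k E Ea]
  [IsScalarTower K k Ea] [BC K E A.F Ea]

variable (k E Ea)

include A in
theorem trdeg_Ea : Algebra.trdeg k Ea = Algebra.trdeg k E + g := by
  rw [trdeg_total (K := K) (k := k) (M := E) (F := A.F) (Ma := Ea), A.trdeg_F]

include A E in
theorem essFiniteType_Ea [Algebra.EssFiniteType k E] : Algebra.EssFiniteType k Ea := by
  have h5 : Algebra.EssFiniteType E Ea := essFinite_bc (K := K) (F := A.F)
  exact Algebra.EssFiniteType.comp k E Ea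

variable {k} {Ea}

/-- (i), first part -/
theorem hgt_eq_zero_of_isAlgebraic (h1 : Algebra.trdeg k E ≠ 0) (f : A.F) (P : A.Pt Ea)
    (hΦ : IsAlgebraic (IntermediateField.adjoin k (Set.range (algebraMap A.F Ea)))
      (A.ev (P - A.gpt Ea) f)) : A.hgt k Ea f P = 0 :=
  Module.finrank_of_not_finite
    (not_finiteDimensional_of_isAlgebraic (K := K) (M := E) A.trdeg_F h1 hΦ)

/-- (i), second part -/
theorem finiteDimensional_kaf [Algebra.EssFiniteType k E] (h1 : Algebra.trdeg k E = 1)
    (f : A.F) (P : A.Pt Ea)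
    (hΦ : Transcendental (IntermediateField.adjoin k (Set.range (algebraMap A.F Ea)))
      (A.ev (P - A.gpt Ea) f)) : FiniteDimensional (A.kaf k Ea f P) Ea :=
  finiteDimensional_of_trdeg_one (K := K) (M := E) A.trdeg_F h1 hΦ

theorem hgt_pos [Algebra.EssFiniteType k E] (h1 : Algebra.trdeg k E = 1)
    (f : A.F) (P : A.Pt Ea)
    (hΦ : Transcendental (IntermediateField.adjoin k (Set.range (algebraMap A.F Ea)))
      (A.ev (P - A.gpt Ea) f)) : 0 < A.hgt k Ea f P := by
  have := finiteDimensional_kaf A E h1 f P hΦ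
  exact Module.finrank_pos

theorem hgt_eq_zero_iff [Algebra.EssFiniteType k E] (h1 : Algebra.trdeg k E = 1)
    (f : A.F) (P : A.Pt Ea) : A.hgt k Ea f P = 0 ↔
      IsAlgebraic (IntermediateField.adjoin k (Set.range (algebraMap A.F Ea)))
        (A.ev (P - A.gpt Ea) f) := by
  constructor
  · intro h
    by_contra hΦ
    exact (hgt_pos A E h1 f P hΦ).ne' h
  · exact hgt_eq_zero_of_isAlgebraic A E (by rw [h1]; exact one_ne_zero) f P

/-- (i) with the hypotheses of `StarStmt` -/
theorem hgt_eq_zero_of_isAlgebraic' {u : E} (hu : Transcendental k u)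
    [FiniteDimensional k⟮u⟯ E] (f : A.F) (P : A.Pt Ea)
    (hΦ : IsAlgebraic (IntermediateField.adjoin k (Set.range (algebraMap A.F Ea)))
      (A.ev (P - A.gpt Ea) f)) : A.hgt k Ea f P = 0 :=
  hgt_eq_zero_of_isAlgebraic A E (by rw [trdeg_eq_one hu]; exact one_ne_zero) f P hΦ

theorem finiteDimensional_kaf' {u : E} (hu : Transcendental k u)
    [FiniteDimensional k⟮u⟯ E] (f : A.F) (P : A.Pt Ea)
    (hΦ : Transcendental (IntermediateField.adjoin k (Set.range (algebraMap A.F Ea)))
      (A.ev (P - A.gpt Ea) f)) : FiniteDimensional (A.kaf k Ea f P) Ea := by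
  have := essFinite_of_finite (k := k) u
  exact finiteDimensional_kaf A E (trdeg_eq_one hu) f P hΦ

theorem hgt_eq_zero_iff' {u : E} (hu : Transcendental k u)
    [FiniteDimensional k⟮u⟯ E] (f : A.F) (P : A.Pt Ea) : A.hgt k Ea f P = 0 ↔
      IsAlgebraic (IntermediateField.adjoin k (Set.range (algebraMap A.F Ea)))
        (A.ev (P - A.gpt Ea) f) := by
  have := essFinite_of_finite (k := k) u
  exact hgt_eq_zero_iff A E (trdeg_eq_one hu) f P

end one

section two

variable {k E M Ma : Type u} [Field k] [Field E] [Field M] [Field Ma] [Algebra K k]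
  [Algebra k E] [Algebra k M] [Algebra E M] [Algebra (Cp E) M] [IsScalarTower k E M]
  [IsScalarTower k (Cp E) M] [BC k E (Cp E) M] {u : E}

theorem trdeg_M (hu : Transcendental k u) [FiniteDimensional k⟮u⟯ E] :
    Algebra.trdeg k M = 2 := by
  have h1 : Algebra.trdeg k E = 1 := trdeg_eq_one hu
  have h2 : Algebra.trdeg k (Cp E) = 1 := h1
  rw [trdeg_total (K := k) (k := k) (M := E) (F := Cp E) (Ma := M), h1, h2]
  exact one_add_one_eq_two

theorem essFinite_M (u : E) [FiniteDimensional k⟮u⟯ E] : Algebra.EssFiniteType k M := by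
  have h1 : Algebra.EssFiniteType k E := essFinite_of_finite u
  have h2 : Algebra.EssFiniteType k (Cp E) := h1
  have h3 : Algebra.EssFiniteType E M := essFinite_bc (K := k) (F := Cp E)
  exact Algebra.EssFiniteType.comp k E M

variable [Algebra K M] [IsScalarTower K k M] [Algebra M Ma] [Algebra A.F Ma] [Algebra K Ma]
  [Algebra k Ma] [IsScalarTower K M Ma] [IsScalarTower K A.F Ma] [IsScalarTower k M Ma]
  [IsScalarTower K k Ma] [BC K M A.F Ma]

variable (E M) in
include E M in
/-- (ii) -/
theorem finiteDimensional_kaf_adjoin (hu : Transcendental k u) [FiniteDimensional k⟮u⟯ E]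
    (f : A.F) (y : A.Pt Ma)
    (hΦ : Transcendental (IntermediateField.adjoin k (Set.range (algebraMap A.F Ma)))
      (A.ev (y - A.gpt Ma) f)) {x : Ma} (hx : Transcendental (A.kaf k Ma f y) x) :
    FiniteDimensional (A.kaf k Ma f y)⟮x⟯ Ma := by
  have h1 : Algebra.EssFiniteType k M := essFinite_M (E := E) u
  exact finiteDimensional_of_trdeg_two (K := K) (M := M) A.trdeg_F
    (trdeg_M (E := E) hu) hΦ hx

variable (E M) in
include A E M in
/-- `trdeg_k Ma = g + 2` -/
theorem trdeg_Ma (hu : Transcendental k u) [FiniteDimensional k⟮u⟯ E] :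
    Algebra.trdeg k Ma = 2 + g := by
  rw [trdeg_total (K := K) (k := k) (M := M) (F := A.F) (Ma := Ma), A.trdeg_F,
    trdeg_M (E := E) hu]

end two

end Fermat.Agent.AVD6

end
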